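import Fermat.Agent.Romanoff.ExponentSum
import Fermat.Agent.GoldbachSchnirelmann.Main
import Mathlib.Data.Nat.Log

/-!
# The theorem of Romanoff

A positive proportion of the positive integers is `p + g ^ k`: the second moment of the number of
representations is bounded by the sieve for pairs of primes and the series of Romanoff.
-/

set_option autoImplicit false

noncomputable section

namespace FA.Romanoff

open Finset Filter Real
open scoped Topology

/-- The pairs `(p, k)` with `p + g ^ k ≤ X`. -/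
def repPairs (g X : ℕ) : Finset (ℕ × ℕ) :=
  (Nat.primesLE (X / 2)) ×ˢ Icc 1 (Nat.log g (X / 2))

/-- The sum. -/
def repVal (g : ℕ) (q : ℕ × ℕ) : ℕ := q.1 + g ^ q.2

theorem repVal_le {g X : ℕ} {q : ℕ × ℕ} (hq : q ∈ repPairs g X) : repVal g q ≤ X := by
  simp only [repPairs, mem_product, Nat.mem_primesLE, mem_Icc] at hq
  have h2 : X / 2 ≠ 0 := fun h => by simp [h] at hq; omega
  have := Nat.pow_le_of_le_log h2 hq.2.2
  unfold repVal
  omega

theorem recipDiv_mul_le (m n : ℕ) : recipDiv (m * n) ≤ recipDiv m * recipDiv n := by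
  rw [recipDiv, recipDiv, recipDiv, Finset.sum_mul_sum, ← sum_product']
  classical
  refine le_trans (sum_le_sum_of_subset_of_nonneg
    (t := (m.divisors ×ˢ n.divisors).image fun q => q.1 * q.2) (fun d hd => ?_)
    fun d _ _ => by positivity) ?_
  · obtain ⟨a, b, ha, hb, rfl⟩ := Nat.dvd_mul.1 (Nat.dvd_of_mem_divisors hd)
    have h0 := mul_ne_zero_iff.1 (Nat.mem_divisors.1 hd).2
    exact mem_image.2 ⟨(a, b), mem_product.2 ⟨Nat.mem_divisors.2 ⟨ha, h0.1⟩,
      Nat.mem_divisors.2 ⟨hb, h0.2⟩⟩, rfl⟩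
  · refine (sum_image_le_of_nonneg fun d _ => by positivity).trans (le_of_eq ?_)
    refine sum_congr rfl fun q _ => ?_
    push_cast
    rw [mul_inv]

theorem recipDiv_pow_le {g : ℕ} (hg : 2 ≤ g) (j : ℕ) :
    recipDiv (g ^ j) ≤ ∏ p ∈ g.primeFactors, (p : ℝ) / (p - 1) := by
  have h1 : ∀ p ∈ g.primeFactors, 1 ≤ (p : ℝ) / (p - 1) := fun p hp => by
    have : (2 : ℝ) ≤ p := by exact_mod_cast (Nat.prime_of_mem_primeFactors hp).two_le
    rw [le_div_iff₀ (by linarith)]
    linarith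
  rcases Nat.eq_zero_or_pos j with rfl | hj
  · simpa [recipDiv] using one_le_prod h1
  · refine (recipDiv_le_prod (by positivity)).trans (le_of_eq ?_)
    rw [Nat.primeFactors_pow _ hj.ne']

/-- The pairs with given exponents and the same sum. -/
theorem card_collision_le {g X k l : ℕ} :
    #((repPairs g X).filter fun q => q.2 = k ∧
      ∃ r ∈ repPairs g X, r.2 = l ∧ repVal g q = repVal g r) ≤
      #(GoldbachSchnirelmann.primePairs ((g : ℤ) ^ k - (g : ℤ) ^ l) X) := by
  refine card_le_card_of_injOn Prod.fst ?_ ?_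
  · intro q hq
    simp only [mem_coe, mem_filter] at hq
    obtain ⟨hq, hk, r, hr, hl, he⟩ := hq
    simp only [repPairs, mem_product, Nat.mem_primesLE] at hq hr
    simp only [mem_coe, GoldbachSchnirelmann.primePairs, mem_filter, mem_Ioc]
    refine ⟨⟨hq.1.2.pos, hq.1.1.trans (Nat.div_le_self X 2)⟩, hq.1.2, ?_⟩
    have he' : ((q.1 : ℤ) + ((g : ℤ) ^ k - (g : ℤ) ^ l)) = r.1 := by
      have : ((repVal g q : ℕ) : ℤ) = repVal g r := congrArg _ he
      simp only [repVal, hk, hl] at this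
      push_cast at this
      linarith
    rw [he', Int.natAbs_natCast]
    exact hr.1.2
  · intro q hq r hr h
    simp only [mem_coe, mem_filter] at hq hr
    exact Prod.ext h (hq.2.1.trans hr.2.1.symm)

/-- `∑_{k ≠ l} ∑_{d ∣ g^k - g^l} 1/d = O (K ^ 2)`. -/
theorem sum_singularSum_le {g : ℕ} (hg : 2 ≤ g) (K : ℕ) :
    ∑ q ∈ (Icc 1 K ×ˢ Icc 1 K).filter (fun q => q.1 ≠ q.2),
        GoldbachSchnirelmann.singularSum ((g : ℤ) ^ q.1 - (g : ℤ) ^ q.2) ≤
      2 * (∏ p ∈ g.primeFactors, (p : ℝ) / (p - 1)) * (∑' d, romanoffTerm g d) * (K : ℝ) ^ 2 := by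
  obtain ⟨B, hB⟩ : ∃ B, B = ∏ p ∈ g.primeFactors, (p : ℝ) / (p - 1) := ⟨_, rfl⟩
  obtain ⟨T, hT⟩ : ∃ T, T = ∑' d, romanoffTerm g d := ⟨_, rfl⟩
  have hB0 : 0 ≤ B := (recipDiv_nonneg _).trans (hB ▸ recipDiv_pow_le hg 0)
  rw [← hB, ← hT]
  have hstep : ∀ a b : ℕ, a < b → GoldbachSchnirelmann.singularSum ((g : ℤ) ^ b - (g : ℤ) ^ a) ≤
      B * recipDiv (g ^ (b - a) - 1) := by
    intro a b hab
    obtain ⟨i, rfl⟩ := Nat.exists_eq_add_of_le hab.le
    have h1 : 1 ≤ g ^ i := Nat.one_le_pow _ _ (by omega)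
    rw [show ((g : ℤ) ^ (a + i) - (g : ℤ) ^ a) = ((g ^ a * (g ^ i - 1) : ℕ) : ℤ) by
      push_cast [h1]; ring, singularSum_eq, Int.natAbs_natCast, Nat.add_sub_cancel_left]
    exact (recipDiv_mul_le _ _).trans
      (mul_le_mul_of_nonneg_right (hB ▸ recipDiv_pow_le hg a) (recipDiv_nonneg _))
  have hsymm : ∀ a b : ℕ, GoldbachSchnirelmann.singularSum ((g : ℤ) ^ a - (g : ℤ) ^ b) =
      GoldbachSchnirelmann.singularSum ((g : ℤ) ^ b - (g : ℤ) ^ a) := fun a b => by
    simp only [singularSum_eq]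
    rw [← Int.natAbs_neg, neg_sub]
  have hhalf : ∑ q ∈ (Icc 1 K ×ˢ Icc 1 K).filter (fun q => q.2 < q.1),
      GoldbachSchnirelmann.singularSum ((g : ℤ) ^ q.1 - (g : ℤ) ^ q.2) ≤ B * T * (K : ℝ) ^ 2 := by
    refine (sum_le_sum fun q hq => hstep q.2 q.1 (mem_filter.1 hq).2).trans ?_
    rw [sum_filter, sum_product]
    have hK : ∀ b ∈ Icc 1 K,
        (∑ a ∈ Icc 1 K, if a < b then B * recipDiv (g ^ (b - a) - 1) else 0) ≤ B * (K * T) := by
      intro b hb
      rw [← sum_filter, ← mul_sum]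
      refine mul_le_mul_of_nonneg_left ?_ hB0
      refine le_trans ?_ (hT ▸ sum_recipDiv_pow_sub_one_le hg K)
      rw [mem_Icc] at hb
      rw [← sum_image (g := fun a => b - a) (f := fun i => recipDiv (g ^ i - 1))]
      · refine sum_le_sum_of_subset_of_nonneg (fun i hi => ?_) fun i _ _ => recipDiv_nonneg _
        simp only [mem_image, mem_filter, mem_Icc] at hi ⊢
        omega
      · intro a ha a' ha' h
        simp only [mem_coe, mem_filter, mem_Icc] at ha ha' h
        omega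
    refine (sum_le_sum hK).trans (le_of_eq ?_)
    rw [sum_const, Nat.card_Icc, Nat.add_sub_cancel, nsmul_eq_mul]
    ring
  rw [← sum_filter_add_sum_filter_not _ (fun q : ℕ × ℕ => q.2 < q.1), filter_filter,
    filter_filter, show 2 * B * T * (K : ℝ) ^ 2 = B * T * (K : ℝ) ^ 2 + B * T * (K : ℝ) ^ 2 by ring]
  refine add_le_add ?_ ?_
  · refine le_trans (le_of_eq (sum_congr (filter_congr fun q _ => ?_) fun _ _ => rfl)) hhalf
    exact ⟨fun h => h.2, fun h => ⟨h.ne', h⟩⟩
  · refine le_trans (le_of_eq ?_) hhalf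
    refine sum_nbij' (fun q => (q.2, q.1)) (fun q => (q.2, q.1)) ?_ ?_ ?_ ?_ ?_
    · intro q hq
      simp only [mem_filter, mem_product] at hq ⊢
      exact ⟨⟨hq.1.2, hq.1.1⟩, by omega⟩
    · intro q hq
      simp only [mem_filter, mem_product] at hq ⊢
      exact ⟨⟨hq.1.2, hq.1.1⟩, by omega, by omega⟩
    · exact fun _ _ => rfl
    · exact fun _ _ => rfl
    · exact fun q _ => hsymm _ _

/-- Cauchy–Schwarz: `|P| ^ 2 ≤ |values| * (|P| + coincidences)`. -/
theorem card_sq_le {g : ℕ} (hg : 2 ≤ g) {X : ℕ} (hX : 2 ≤ X) :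
    (#(repPairs g X) : ℝ) ^ 2 ≤ #((repPairs g X).image (repVal g)) *
      ((#(repPairs g X) : ℝ) + 10000 * (∏ p ∈ g.primeFactors, (p : ℝ) / (p - 1)) *
        (∑' d, romanoffTerm g d) / log g ^ 2 * X) := by
  obtain ⟨P, hP⟩ : ∃ P, P = repPairs g X := ⟨_, rfl⟩
  obtain ⟨K, hK⟩ : ∃ K, K = Nat.log g (X / 2) := ⟨_, rfl⟩
  rw [← hP]
  obtain ⟨r, hr⟩ : ∃ r : ℕ → ℕ, r = fun n => #(P.filter fun q => repVal g q = n) := ⟨_, rfl⟩
  have h1 : #P = ∑ n ∈ P.image (repVal g), r n := by
    rw [hr]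
    exact card_eq_sum_card_image _ _
  have hcs : (#P : ℝ) ^ 2 ≤ #(P.image (repVal g)) * ∑ n ∈ P.image (repVal g), (r n : ℝ) ^ 2 := by
    rw [h1, Nat.cast_sum]
    exact sq_sum_le_card_mul_sum_sq
  refine hcs.trans (mul_le_mul_of_nonneg_left ?_ (Nat.cast_nonneg _))
  have hsum : ∑ n ∈ P.image (repVal g), r n ^ 2 =
      #((P ×ˢ P).filter fun z => repVal g z.1 = repVal g z.2) := by
    rw [card_eq_sum_card_fiberwise (f := fun z : (ℕ × ℕ) × (ℕ × ℕ) => repVal g z.1)
      (t := P.image (repVal g)) fun z hz => mem_coe.2 (mem_image_of_mem _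
        (mem_product.1 (mem_filter.1 (mem_coe.1 hz)).1).1)]
    refine sum_congr rfl fun n _ => ?_
    rw [hr, sq, ← card_product]
    congr 1
    ext z
    simp only [mem_product, mem_filter]
    constructor
    · rintro ⟨⟨h1, h2⟩, h3, h4⟩
      exact ⟨⟨⟨h1, h3⟩, h2.trans h4.symm⟩, h2⟩
    · rintro ⟨⟨⟨h1, h2⟩, h3⟩, h4⟩
      exact ⟨⟨h1, h4⟩, h2, h3 ▸ h4⟩
  obtain ⟨O, hO⟩ : ∃ O, O = (Icc 1 K ×ˢ Icc 1 K).filter (fun q : ℕ × ℕ => q.1 ≠ q.2) := ⟨_, rfl⟩
  have hsplit : #((P ×ˢ P).filter fun z => repVal g z.1 = repVal g z.2) ≤ #P + ∑ o ∈ O,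
      #(GoldbachSchnirelmann.primePairs ((g : ℤ) ^ o.1 - (g : ℤ) ^ o.2) X) := by
    rw [← card_filter_add_card_filter_not (fun z : (ℕ × ℕ) × (ℕ × ℕ) => z.1.2 = z.2.2)]
    refine add_le_add ?_ ?_
    · refine card_le_card_of_injOn Prod.fst ?_ ?_
      · intro z hz
        simp only [mem_coe, mem_filter, mem_product] at hz
        exact hz.1.1.1
      · intro z hz w hw h
        simp only [mem_coe, mem_filter, mem_product] at hz hw
        refine Prod.ext h (Prod.ext ?_ ?_)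
        · have e1 := hz.1.2
          have e2 := hw.1.2
          have e3 := hz.2
          have e4 := hw.2
          simp only [repVal] at e1 e2
          rw [h] at e1 e3
          rw [← e3] at e1
          rw [← e4] at e2
          omega
        · rw [← hz.2, ← hw.2, h]
    · rw [card_eq_sum_card_fiberwise (f := fun z : (ℕ × ℕ) × (ℕ × ℕ) => (z.1.2, z.2.2)) (t := O)]
      · refine sum_le_sum fun o _ => (le_trans ?_ card_collision_le)
        refine card_le_card_of_injOn Prod.fst ?_ ?_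
        · intro z hz
          simp only [mem_coe, mem_filter, mem_product] at hz
          obtain ⟨⟨⟨⟨h1, h2⟩, h3⟩, -⟩, rfl⟩ := hz
          subst hP
          exact mem_coe.2 (mem_filter.2 ⟨h1, rfl, z.2, h2, rfl, h3⟩)
        · intro z hz w hw h
          simp only [mem_coe, mem_filter, mem_product] at hz hw
          obtain ⟨⟨⟨-, h3⟩, -⟩, rfl⟩ := hz
          obtain ⟨⟨⟨-, h4⟩, -⟩, h5⟩ := hw
          simp only [Prod.mk.injEq] at h5
          refine Prod.ext h (Prod.ext ?_ h5.2.symm)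
          simp only [repVal, h, h5.2] at h3 h4
          omega
      · intro z hz
        simp only [mem_coe, mem_filter, mem_product] at hz
        simp only [mem_coe, hO, mem_filter, mem_product]
        obtain ⟨⟨⟨h1, h2⟩, -⟩, h3⟩ := hz
        rw [hP, repPairs, mem_product, ← hK] at h1 h2
        exact ⟨⟨h1.2, h2.2⟩, h3⟩
  have hL : 0 < log (X : ℝ) := log_pos (by exact_mod_cast hX)
  have hlg : 0 < log (g : ℝ) := log_pos (by exact_mod_cast hg)
  have hKlog : (K : ℝ) * log g ≤ log X := by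
    rcases Nat.eq_zero_or_pos K with h0 | h0
    · rw [h0, Nat.cast_zero, zero_mul]; exact hL.le
    have h2 : X / 2 ≠ 0 := by omega
    have := (Nat.pow_le_of_le_log h2 (hK ▸ le_rfl : K ≤ Nat.log g (X / 2))).trans
      (Nat.div_le_self X 2)
    rw [← log_pow]
    exact log_le_log (by positivity) (by exact_mod_cast this)
  calc (∑ n ∈ P.image (repVal g), (r n : ℝ) ^ 2)
      = ((∑ n ∈ P.image (repVal g), r n ^ 2 : ℕ) : ℝ) := by push_cast; rfl
    _ ≤ (#P : ℝ) + ∑ o ∈ O,
        (#(GoldbachSchnirelmann.primePairs ((g : ℤ) ^ o.1 - (g : ℤ) ^ o.2) X) : ℝ) := by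
        rw [← Nat.cast_sum, ← Nat.cast_add, Nat.cast_le, hsum]
        exact hsplit
    _ ≤ (#P : ℝ) + ∑ o ∈ O, 5000 * X / log X ^ 2 *
        GoldbachSchnirelmann.singularSum ((g : ℤ) ^ o.1 - (g : ℤ) ^ o.2) := by
        refine add_le_add le_rfl (sum_le_sum fun o ho => ?_)
        simp only [hO, mem_filter, mem_product, mem_Icc] at ho
        refine (GoldbachSchnirelmann.card_primePairs_le ?_ ?_ hX).trans (le_of_eq (by ring))
        · refine (ZMod.intCast_zmod_eq_zero_iff_dvd _ 2).1 ?_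
          push_cast
          rcases Nat.even_or_odd g with he | he
          · rw [(ZMod.natCast_eq_zero_iff_even).2 he, zero_pow (by omega), zero_pow (by omega),
              sub_zero]
          · rw [(ZMod.natCast_eq_one_iff_odd).2 he, one_pow, one_pow, sub_self]
        · rw [sub_ne_zero]
          exact fun h => ho.2 (Nat.pow_right_injective hg (by exact_mod_cast h))
    _ ≤ (#P : ℝ) + 5000 * X / log X ^ 2 * (2 * (∏ p ∈ g.primeFactors, (p : ℝ) / (p - 1)) *
        (∑' d, romanoffTerm g d) * (K : ℝ) ^ 2) := by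
        rw [← mul_sum, hO]
        exact add_le_add le_rfl
          (mul_le_mul_of_nonneg_left (sum_singularSum_le hg K) (by positivity))
    _ ≤ _ := by
        refine add_le_add le_rfl ?_
        have hB0 : 0 ≤ ∏ p ∈ g.primeFactors, (p : ℝ) / (p - 1) :=
          (recipDiv_nonneg _).trans (recipDiv_pow_le hg 0)
        have hT0 : 0 ≤ ∑' d, romanoffTerm g d := tsum_nonneg (romanoffTerm_nonneg g)
        have hK2 : (K : ℝ) ^ 2 ≤ log X ^ 2 / log g ^ 2 := by
          rw [le_div_iff₀ (by positivity), ← mul_pow]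
          exact pow_le_pow_left₀ (by positivity) hKlog 2
        refine (mul_le_mul_of_nonneg_left (mul_le_mul_of_nonneg_left hK2 (by positivity))
          (by positivity)).trans (le_of_eq ?_)
        field_simp
        ring

/-- **The theorem of Romanoff.** -/
theorem exists_count_rep {g : ℕ} (hg : 2 ≤ g) :
    ∃ c : ℝ, 0 < c ∧ ∀ᶠ X : ℕ in atTop, c * X ≤ #((repPairs g X).image (repVal g)) := by
  obtain ⟨C, hC⟩ : ∃ C : ℝ, C = 10000 * (∏ p ∈ g.primeFactors, (p : ℝ) / (p - 1)) *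
      (∑' d, romanoffTerm g d) / log g ^ 2 := ⟨_, rfl⟩
  have hlg : 0 < log (g : ℝ) := log_pos (by exact_mod_cast hg)
  have hC0 : 0 ≤ C := by
    have h1 : 0 ≤ ∏ p ∈ g.primeFactors, (p : ℝ) / (p - 1) :=
      (recipDiv_nonneg _).trans (recipDiv_pow_le hg 0)
    have h2 : 0 ≤ ∑' d, romanoffTerm g d := tsum_nonneg (romanoffTerm_nonneg g)
    rw [hC]
    positivity
  obtain ⟨c, hc⟩ : ∃ c : ℝ, c = 1 / (16 * log g) := ⟨_, rfl⟩
  have hc0 : 0 < c := hc ▸ by positivity
  refine ⟨c ^ 2 / (c + C), by positivity, ?_⟩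
  have hbig := (tendsto_log_atTop.comp tendsto_natCast_atTop_atTop).eventually
    (eventually_ge_atTop (2 * (log 4 + log (g : ℝ))))
  filter_upwards [GoldbachSchnirelmann.eventually_primeCounting_half, eventually_ge_atTop 4,
    hbig] with X hπ h4 hbig
  simp only [Function.comp_apply] at hbig
  have hL : 0 < log (X : ℝ) := log_pos (by exact_mod_cast (by omega : 1 < X))
  obtain ⟨K, hK⟩ : ∃ K, K = Nat.log g (X / 2) := ⟨_, rfl⟩
  have hKlow : log X / (2 * log g) ≤ K := by
    have h := Nat.lt_pow_succ_log_self (show 1 < g by omega) (X / 2)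
    rw [← hK] at h
    have h' : (X : ℝ) ≤ 4 * (g : ℝ) ^ (K + 1) := by
      exact_mod_cast (show X ≤ 4 * g ^ (K + 1) by rw [Nat.succ_eq_add_one] at h; omega)
    have := log_le_log (by exact_mod_cast (by omega : 0 < X)) h'
    rw [log_mul (by norm_num) (by positivity), log_pow] at this
    push_cast at this
    rw [div_le_iff₀ (by positivity)]
    nlinarith
  obtain ⟨N, hN⟩ : ∃ N : ℝ, N = #(repPairs g X) := ⟨_, rfl⟩
  have hNlow : c * X ≤ N := by
    rw [hN, repPairs, card_product, Nat.primesLE_card_eq_primeCounting, Nat.card_Icc,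
      Nat.add_sub_cancel, ← hK, Nat.cast_mul]
    refine le_trans (le_of_eq ?_) (mul_le_mul hπ hKlow (by positivity) (Nat.cast_nonneg _))
    rw [hc]
    field_simp
    norm_num
  have hX0 : (0 : ℝ) < X := by exact_mod_cast (by omega : 0 < X)
  have h := card_sq_le hg (show 2 ≤ X by omega)
  rw [← hN, ← hC] at h
  obtain ⟨I, hI⟩ : ∃ I : ℝ, I = #((repPairs g X).image (repVal g)) := ⟨_, rfl⟩
  rw [← hI] at h ⊢
  have hN0 : 0 < N := (mul_pos hc0 hX0).trans_le hNlow
  have hI0 : 0 ≤ I := hI ▸ Nat.cast_nonneg _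
  rw [div_mul_eq_mul_div, div_le_iff₀ (by positivity)]
  have h2 : N * c ≤ I * (c + C) := by
    refine le_of_mul_le_mul_left ?_ hN0
    have := mul_le_mul_of_nonneg_left hNlow (mul_nonneg hI0 hC0)
    nlinarith
  nlinarith

end FA.Romanoff
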