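import Mathlib.Data.Nat.ModEq
import Mathlib.Data.Set.Finite.Basic
import Mathlib.Data.Nat.Prime.Basic
import Mathlib.Tactic

/-!
# Covering congruences

The progression `18814027 (mod 346729110)` of Erdős contains no `p + 2 ^ k`, and by the same
method `k 2 ^ n + 1` (Sierpiński) and `k 2 ^ n - 1` (Riesel) are composite for all `n` for
infinitely many odd `k`.
-/

set_option autoImplicit false

namespace FA.Romanoff

/-- The powers of `2` modulo a divisor of `2 ^ T - 1` have period `T`. -/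
theorem two_pow_mod_period {q T : ℕ} (hT : 2 ^ T % q = 1) (k : ℕ) :
    2 ^ k % q = 2 ^ (k % T) % q := by
  conv_lhs => rw [← Nat.div_add_mod k T, pow_add, pow_mul, Nat.mul_mod, Nat.pow_mod, hT, one_pow,
    ← Nat.mul_mod, one_mul]

theorem erdos_cover_finite :
    (∀ r < 24, ∃ q ∈ [3, 5, 7, 13, 17, 241], 18814027 % q = 2 ^ r % q) ∧
    (∀ q ∈ [3, 5, 7, 13, 17, 241], Nat.Prime q ∧ q ∣ 346729110 ∧ 2 ^ 24 % q = 1) ∧
    (∀ r < 5, ∀ q ∈ [3, 5, 7, 13, 17, 241], (q + 2 ^ r) % 31 ≠ 18814027 % 31) := by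
  refine ⟨by decide +kernel, ?_, by decide +kernel⟩
  simp only [List.forall_mem_cons, List.not_mem_nil, IsEmpty.forall_iff, implies_true, and_true]
  norm_num

/-- The progression of Erdős. -/
theorem erdos_progression {n : ℕ} (hn : n ≡ 18814027 [MOD 346729110]) :
    Odd n ∧ ∀ p k : ℕ, p.Prime → n ≠ p + 2 ^ k := by
  obtain ⟨h1, h2, h3⟩ := erdos_cover_finite
  have hred : ∀ d, d ∣ 346729110 → n % d = 18814027 % d := fun d hd => hn.of_dvd hd
  refine ⟨Nat.odd_iff.2 ((hred 2 (by norm_num)).trans (by norm_num)), fun p k hp he => ?_⟩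
  obtain ⟨q, hq, hqr⟩ := h1 (k % 24) (Nat.mod_lt _ (by norm_num))
  obtain ⟨hqp, hqd, hqT⟩ := h2 q hq
  have hdvd : q ∣ p := by
    have : (p + 2 ^ k) % q = (0 + 2 ^ k) % q := by
      rw [zero_add, ← he, hred q hqd, hqr, two_pow_mod_period hqT k]
    exact Nat.modEq_zero_iff_dvd.1 (Nat.ModEq.add_right_cancel' _ this)
  obtain rfl := (Nat.prime_dvd_prime_iff_eq hqp hp).1 hdvd
  refine h3 (k % 5) (Nat.mod_lt _ (by norm_num)) q hq ?_
  rw [← hred 31 (by norm_num), he, Nat.add_mod, ← two_pow_mod_period (by norm_num) k,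
    ← Nat.add_mod]

theorem sierpinski_cover_finite :
    (∀ r < 36, ∃ q ∈ [3, 5, 7, 13, 19, 37, 73], (78557 * 2 ^ r + 1) % q = 0) ∧
    (∀ q ∈ [3, 5, 7, 13, 19, 37, 73], 2 ≤ q ∧ q ≤ 73 ∧ q ∣ 140100870 ∧ 2 ^ 36 % q = 1) := by
  refine ⟨by decide +kernel, ?_⟩
  simp only [List.forall_mem_cons, List.not_mem_nil, IsEmpty.forall_iff, implies_true, and_true]
  norm_num

theorem riesel_cover_finite :
    (∀ r < 24, ∃ q ∈ [3, 5, 7, 13, 17, 241], 509203 * 2 ^ r % q = 1) ∧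
    (∀ q ∈ [3, 5, 7, 13, 17, 241], 2 ≤ q ∧ q ≤ 241 ∧ q ∣ 11184810 ∧ 2 ^ 24 % q = 1) := by
  refine ⟨by decide +kernel, ?_⟩
  simp only [List.forall_mem_cons, List.not_mem_nil, IsEmpty.forall_iff, implies_true, and_true]
  norm_num

/-- **The numbers of Sierpiński.** -/
theorem sierpinski_composite (j n : ℕ) :
    Odd (78557 + 140100870 * j) ∧ ¬ ((78557 + 140100870 * j) * 2 ^ n + 1).Prime := by
  refine ⟨Nat.odd_iff.2 (by omega), fun hp => ?_⟩
  obtain ⟨h1, h2⟩ := sierpinski_cover_finite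
  obtain ⟨q, hq, hqr⟩ := h1 (n % 36) (Nat.mod_lt _ (by norm_num))
  obtain ⟨hq2, hq73, hqd, hqT⟩ := h2 q hq
  have hdvd : q ∣ (78557 + 140100870 * j) * 2 ^ n + 1 := by
    rw [Nat.dvd_iff_mod_eq_zero, ← hqr]
    have hk : (78557 + 140100870 * j) % q = 78557 % q := by
      rw [Nat.add_mod, Nat.mul_mod, Nat.mod_eq_zero_of_dvd hqd]
      simp
    rw [Nat.add_mod, Nat.mul_mod, hk, two_pow_mod_period hqT n, ← Nat.mul_mod, ← Nat.add_mod]
  have := (Nat.prime_dvd_prime_iff_eq ?_ hp).1 hdvd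
  · have hpos : 1 ≤ 2 ^ n := Nat.one_le_two_pow
    nlinarith
  · rcases hp.eq_one_or_self_of_dvd q hdvd with h | h
    · omega
    · exact h ▸ hp

/-- **The numbers of Riesel.** -/
theorem riesel_composite (j n : ℕ) :
    Odd (509203 + 11184810 * j) ∧ ¬ ((509203 + 11184810 * j) * 2 ^ n - 1).Prime := by
  refine ⟨Nat.odd_iff.2 (by omega), fun hp => ?_⟩
  obtain ⟨h1, h2⟩ := riesel_cover_finite
  obtain ⟨q, hq, hqr⟩ := h1 (n % 24) (Nat.mod_lt _ (by norm_num))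
  obtain ⟨hq2, hq241, hqd, hqT⟩ := h2 q hq
  have hpos : 1 ≤ 2 ^ n := Nat.one_le_two_pow
  have hbig : 509203 ≤ (509203 + 11184810 * j) * 2 ^ n := by nlinarith
  have hdvd : q ∣ (509203 + 11184810 * j) * 2 ^ n - 1 := by
    refine (Nat.modEq_iff_dvd' (by omega)).1 (Nat.ModEq.symm ?_)
    have hk : (509203 + 11184810 * j) % q = 509203 % q := by
      rw [Nat.add_mod, Nat.mul_mod, Nat.mod_eq_zero_of_dvd hqd]
      simp
    rw [Nat.ModEq, Nat.mod_eq_of_lt (show 1 < q by omega), Nat.mul_mod, hk,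
      two_pow_mod_period hqT n, ← Nat.mul_mod, hqr]
  rcases hp.eq_one_or_self_of_dvd q hdvd with h | h <;> omega

/-- Every odd `n` with `3 ≤ n < 127` is a prime plus a power of `2`, but `127` is not. -/
theorem polignac_127 :
    (∀ n < 127, Odd n → 3 ≤ n → ∃ k < 7, 2 ^ k < n ∧ (n - 2 ^ k).Prime) ∧
    ∀ k < 7, ¬ (127 - 2 ^ k).Prime := by
  constructor
  · decide +kernel
  · decide +kernel

end FA.Romanoff
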