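import Fermat.Agent.GoldbachSchnirelmann.Pairs
import Fermat.Agent.ErdosKac.Mertens
import Mathlib.Algebra.Ring.GeomSum
import Mathlib.Analysis.SpecificLimits.Normed
import Mathlib.NumberTheory.ArithmeticFunction.Misc
import Mathlib.Tactic

/-!
# The series of Romanoff

`∑ 1 / (d ord_d g)` over all `d` prime to `g` converges (Romanoff; the proof is that of Erdős and
Turán: the `d` of order at most `x` divide a number below `g ^ x²`, whose sum of reciprocals of
divisors is `O (log x)`).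
-/

set_option autoImplicit false
set_option linter.style.haveILetI false

noncomputable section

namespace FA.Romanoff

open Finset

/-- `∑_{d ∣ n} 1 / d`. -/
def recipDiv (n : ℕ) : ℝ := ∑ d ∈ n.divisors, (d : ℝ)⁻¹

theorem recipDiv_nonneg (n : ℕ) : 0 ≤ recipDiv n := sum_nonneg fun d _ => by positivity

theorem singularSum_eq (a : ℤ) : GoldbachSchnirelmann.singularSum a = recipDiv a.natAbs := by
  simp [GoldbachSchnirelmann.singularSum, recipDiv]

/-- `∑_{d ∣ n} 1 / d ≤ ∏_{p ∣ n} p / (p - 1)`. -/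
theorem recipDiv_le_prod {n : ℕ} (hn : n ≠ 0) :
    recipDiv n ≤ ∏ p ∈ n.primeFactors, (p : ℝ) / (p - 1) := by
  have e : recipDiv n * n = ∑ d ∈ n.divisors, (d : ℝ) := by
    rw [recipDiv, sum_mul, ← Nat.sum_div_divisors n (fun d => (d : ℝ))]
    refine sum_congr rfl fun d hd => ?_
    rw [Nat.cast_div (Nat.dvd_of_mem_divisors hd)
      (Nat.cast_ne_zero.2 (Nat.pos_of_mem_divisors hd).ne'), div_eq_mul_inv, mul_comm]
  have hn0 : (0 : ℝ) < n := by positivity
  rw [← mul_le_mul_iff_of_pos_right hn0, e]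
  have e2 : (∑ d ∈ n.divisors, (d : ℝ)) =
      ∏ p ∈ n.primeFactors, ∑ i ∈ range (n.factorization p + 1), (p : ℝ) ^ i := by
    rw [← Nat.cast_sum, Nat.sum_divisors hn]
    push_cast
    rfl
  have e3 : ∏ p ∈ n.primeFactors, (p : ℝ) ^ n.factorization p = n := by
    exact_mod_cast (Nat.prod_factorization_pow_eq_self hn)
  rw [e2]
  conv_rhs => rw [← e3, ← prod_mul_distrib]
  refine prod_le_prod (fun p _ => sum_nonneg fun i _ => by positivity) fun p hp => ?_
  have hp1 : (1 : ℝ) < p := by exact_mod_cast (Nat.prime_of_mem_primeFactors hp).one_lt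
  rw [div_mul_eq_mul_div, le_div_iff₀ (by linarith), geom_sum_mul, pow_succ']
  linarith

/-- `∏_{p ≤ y} p / (p - 1) = O (log y)`. -/
theorem exists_eulerProd_le :
    ∃ C : ℝ, 0 < C ∧ ∀ y : ℕ, 2 ≤ y → ∀ S : Finset ℕ, (∀ p ∈ S, p.Prime ∧ p ≤ y) →
      ∏ p ∈ S, (p : ℝ) / (p - 1) ≤ C * Real.log y := by
  obtain ⟨C, hC⟩ := ErdosKac.exists_abs_recipSum_sub_le
  have hs : Summable fun k : ℕ => 2 / (k : ℝ) ^ 2 := by
    simpa [div_eq_mul_inv] using (Real.summable_nat_pow_inv.2 one_lt_two).mul_left (2 : ℝ)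
  refine ⟨Real.exp (C + ∑' k : ℕ, 2 / (k : ℝ) ^ 2), Real.exp_pos _, fun y hy S hS => ?_⟩
  have hL : 0 < Real.log y := Real.log_pos (by exact_mod_cast hy)
  have hterm : ∀ p ∈ S, (p : ℝ) / (p - 1) ≤ Real.exp ((p : ℝ)⁻¹ + 2 / (p : ℝ) ^ 2) := by
    intro p hp
    have hp2 : (2 : ℝ) ≤ p := by exact_mod_cast (hS p hp).1.two_le
    refine le_trans ?_ (Real.add_one_le_exp _)
    rw [div_le_iff₀ (by linarith)]
    have hp0 : (p : ℝ) ≠ 0 := by positivity
    field_simp
    nlinarith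
  calc ∏ p ∈ S, (p : ℝ) / (p - 1)
      ≤ ∏ p ∈ S, Real.exp ((p : ℝ)⁻¹ + 2 / (p : ℝ) ^ 2) := by
        refine prod_le_prod (fun p hp => div_nonneg (Nat.cast_nonneg p) ?_) hterm
        have : (2 : ℝ) ≤ p := by exact_mod_cast (hS p hp).1.two_le
        linarith
    _ = Real.exp (∑ p ∈ S, (p : ℝ)⁻¹ + ∑ p ∈ S, 2 / (p : ℝ) ^ 2) := by
        rw [← Real.exp_sum, sum_add_distrib]
    _ ≤ Real.exp ((Real.log (Real.log y) + C) + ∑' k : ℕ, 2 / (k : ℝ) ^ 2) := by
        refine Real.exp_le_exp.2 (add_le_add ?_ (hs.sum_le_tsum S fun k _ => by positivity))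
        have h1 := (abs_le.1 (hC y hy)).2
        have h2 : ∑ p ∈ S, (p : ℝ)⁻¹ ≤ ErdosKac.recipSum y :=
          sum_le_sum_of_subset_of_nonneg (fun p hp => ErdosKac.mem_primesUpTo.2 (hS p hp))
            fun p _ _ => by positivity
        linarith
    _ = _ := by
        rw [add_assoc, Real.exp_add, Real.exp_log hL]
        ring

/-- `∑_{d ∣ n} 1 / d ≤ C (log y) exp (log n / y)` for every `y ≥ 3`. -/
theorem exists_recipDiv_le : ∃ C : ℝ, 0 < C ∧ ∀ n y : ℕ, n ≠ 0 → 3 ≤ y →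
    recipDiv n ≤ C * Real.log y * Real.exp (Real.log n / y) := by
  obtain ⟨C, hC0, hC⟩ := exists_eulerProd_le
  refine ⟨C, hC0, fun n y hn hy => (recipDiv_le_prod hn).trans ?_⟩
  have hy3 : (3 : ℝ) ≤ y := by exact_mod_cast hy
  rw [← prod_filter_mul_prod_filter_not n.primeFactors (· ≤ y)]
  have hfac : ∀ p ∈ n.primeFactors, (2 : ℝ) ≤ p := fun p hp => by
    exact_mod_cast (Nat.prime_of_mem_primeFactors hp).two_le
  refine mul_le_mul (hC y (by omega) _ fun p hp =>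
    ⟨Nat.prime_of_mem_primeFactors (mem_filter.1 hp).1, (mem_filter.1 hp).2⟩) ?_
    (prod_nonneg fun p hp => div_nonneg (Nat.cast_nonneg p)
      (by linarith [hfac p (mem_filter.1 hp).1]))
    (mul_nonneg hC0.le (Real.log_natCast_nonneg y))
  obtain ⟨T, hT⟩ : ∃ T, T = n.primeFactors.filter fun p => ¬ p ≤ y := ⟨_, rfl⟩
  rw [← hT]
  have hbig : ∀ p ∈ T, (y : ℝ) + 1 ≤ p := fun p hp => by
    rw [hT, mem_filter] at hp
    exact_mod_cast (by omega : y + 1 ≤ p)
  have hcard : (#T : ℝ) ≤ Real.log n := by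
    have hle : ∏ p ∈ T, p ≤ n := Nat.le_of_dvd (Nat.pos_of_ne_zero hn)
      ((prod_dvd_prod_of_subset _ _ id (hT ▸ filter_subset _ _)).trans
        (Nat.prod_primeFactors_dvd n))
    have hle' : ∏ p ∈ T, (p : ℝ) ≤ n := by
      rw [← Nat.cast_prod]
      exact Nat.cast_le.2 hle
    rw [Real.le_log_iff_exp_le (by positivity), ← mul_one (#T : ℝ), ← nsmul_eq_mul,
      ← sum_const, Real.exp_sum]
    refine le_trans (prod_le_prod (fun p _ => (Real.exp_pos 1).le) fun p hp => ?_) hle'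
    linarith [hbig p hp, Real.exp_one_lt_three]
  calc ∏ p ∈ T, (p : ℝ) / (p - 1) ≤ ∏ p ∈ T, Real.exp (1 / (y : ℝ)) := by
        refine prod_le_prod (fun p hp => div_nonneg (Nat.cast_nonneg p)
          (by linarith [hbig p hp])) fun p hp => ?_
        refine le_trans ?_ (Real.add_one_le_exp _)
        have := hbig p hp
        rw [div_add_one (by linarith), div_le_div_iff₀ (by linarith) (by linarith)]
        nlinarith
    _ ≤ Real.exp (Real.log n / y) := by
        rw [prod_const, ← Real.exp_nat_mul]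
        refine Real.exp_le_exp.2 ?_
        rw [mul_one_div]
        exact div_le_div_of_nonneg_right hcard (Nat.cast_nonneg y)

/-- The moduli prime to `g` to which `g` has order at most `x`. -/
theorem exists_sum_small_order_le {g : ℕ} (hg : 2 ≤ g) :
    ∃ C : ℝ, 0 < C ∧ ∀ x : ℕ, ∀ F : Finset ℕ,
      (∀ d ∈ F, d.Coprime g ∧ orderOf (g : ZMod d) ≤ x) →
      ∑ d ∈ F, (d : ℝ)⁻¹ ≤ C * (x + 2) ^ (1 / 2 : ℝ) := by
  obtain ⟨C, hC0, hC⟩ := exists_recipDiv_le
  refine ⟨C * 4 * Real.exp (Real.log g), by positivity, fun x F hF => ?_⟩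
  obtain ⟨P, hP⟩ : ∃ P, P = ∏ h ∈ Icc 1 x, (g ^ h - 1) := ⟨_, rfl⟩
  have hP0 : P ≠ 0 := by
    rw [hP, prod_ne_zero_iff]
    intro h hh
    have := Nat.one_lt_pow (n := h) (a := g) (by rw [mem_Icc] at hh; omega) hg
    omega
  obtain ⟨y, hy⟩ : ∃ y : ℕ, y = (x + 2) ^ 2 := ⟨_, rfl⟩
  have hy3 : 3 ≤ y := hy ▸ le_trans (by norm_num) (Nat.pow_le_pow_left (Nat.le_add_left 2 x) 2)
  have hsub : ∀ d ∈ F, d ≠ 0 → d ∈ P.divisors := by
    intro d hd hd0
    haveI : NeZero d := ⟨hd0⟩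
    obtain ⟨hc, ho⟩ := hF d hd
    have hfin : IsOfFinOrder (g : ZMod d) := by
      rw [← ZMod.coe_unitOfCoprime g hc.symm]
      exact Units.isOfFinOrder_val.2 (isOfFinOrder_of_finite (ZMod.unitOfCoprime g hc.symm))
    obtain ⟨o, ho'⟩ : ∃ o, o = orderOf (g : ZMod d) := ⟨_, rfl⟩
    have ho1 : 1 ≤ o := ho' ▸ hfin.orderOf_pos
    refine Nat.mem_divisors.2 ⟨dvd_trans ?_ (hP ▸ dvd_prod_of_mem _
      (mem_Icc.2 ⟨ho1, ho' ▸ ho⟩)), hP0⟩
    rw [← ZMod.natCast_eq_zero_iff, Nat.cast_sub (Nat.one_le_pow _ _ (by omega)),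
      Nat.cast_pow, Nat.cast_one, ho', pow_orderOf_eq_one, sub_self]
  have hlog : Real.log P ≤ Real.log g * y := by
    have hle : (P : ℝ) ≤ ((g : ℝ) ^ x) ^ x := by
      have : P ≤ ∏ _h ∈ Icc 1 x, g ^ x := hP ▸ prod_le_prod' fun h hh =>
        (Nat.sub_le _ _).trans (Nat.pow_le_pow_right (by omega) (mem_Icc.1 hh).2)
      rw [prod_const, Nat.card_Icc, Nat.add_sub_cancel] at this
      exact_mod_cast this
    refine (Real.log_le_log (by positivity) hle).trans ?_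
    rw [Real.log_pow, Real.log_pow, ← mul_assoc, mul_comm, hy]
    push_cast
    exact mul_le_mul_of_nonneg_left (by nlinarith) (Real.log_natCast_nonneg g)
  calc ∑ d ∈ F, (d : ℝ)⁻¹ = ∑ d ∈ F.filter (· ≠ 0), (d : ℝ)⁻¹ := by
        rw [sum_filter_of_ne]
        intro d _ h h0
        exact h (by simp [h0])
    _ ≤ recipDiv P := sum_le_sum_of_subset_of_nonneg
        (fun d hd => hsub d (mem_filter.1 hd).1 (mem_filter.1 hd).2) fun d _ _ => by positivity
    _ ≤ C * Real.log y * Real.exp (Real.log P / y) := hC P y hP0 hy3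
    _ ≤ C * (4 * (x + 2) ^ (1 / 2 : ℝ)) * Real.exp (Real.log g) := by
        refine mul_le_mul (mul_le_mul_of_nonneg_left ?_ hC0.le)
          (Real.exp_le_exp.2 ?_) (Real.exp_pos _).le (by positivity)
        · have h0 : (0 : ℝ) ≤ (x : ℝ) + 2 := by positivity
          have h1 := Real.log_le_rpow_div h0 (ε := 1 / 2) (by norm_num)
          rw [hy]
          push_cast
          rw [Real.log_pow]
          linarith
        · rwa [div_le_iff₀ (by positivity)]
    _ = _ := by ring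

/-- The term of the series of Romanoff. -/
def romanoffTerm (g d : ℕ) : ℝ :=
  if d.Coprime g then ((d : ℝ) * orderOf (g : ZMod d))⁻¹ else 0

theorem romanoffTerm_nonneg (g d : ℕ) : 0 ≤ romanoffTerm g d := by
  unfold romanoffTerm
  split_ifs <;> positivity

/-- **The series of Romanoff converges.** -/
theorem summable_romanoffTerm {g : ℕ} (hg : 2 ≤ g) : Summable (romanoffTerm g) := by
  obtain ⟨C, hC0, hC⟩ := exists_sum_small_order_le hg
  obtain ⟨f, hf⟩ : ∃ f : ℕ → ℝ,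
      f = fun j : ℕ => C * 4 * (3 / 4 : ℝ) ^ j := ⟨_, rfl⟩
  have hfs : Summable f :=
    hf ▸ (summable_geometric_of_lt_one (by norm_num) (by norm_num)).mul_left _
  refine summable_of_sum_le (c := ∑' j, f j) (romanoffTerm_nonneg g) fun u => ?_
  obtain ⟨v, hv⟩ : ∃ v, v = u.filter fun d : ℕ => d.Coprime g := ⟨_, rfl⟩
  have e : ∑ d ∈ u, romanoffTerm g d = ∑ d ∈ v, ((d : ℝ) * orderOf (g : ZMod d))⁻¹ := by
    rw [hv, sum_filter]
    rfl
  obtain ⟨J, hJ⟩ : ∃ J : ℕ → ℕ, J = fun d : ℕ => Nat.log 2 (orderOf (g : ZMod d)) := ⟨_, rfl⟩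
  rw [e, ← sum_fiberwise_of_maps_to (g := J) (t := v.image J) fun d hd => mem_image_of_mem _ hd]
  refine le_trans (sum_le_sum fun j _ => ?_) (hfs.sum_le_tsum _ fun j _ => by rw [hf]; positivity)
  have hmem : ∀ d ∈ v.filter fun d => J d = j,
      d.Coprime g ∧ orderOf (g : ZMod d) ≤ 2 ^ (j + 1) := by
    intro d hd
    simp only [hv, hJ, mem_filter] at hd
    exact ⟨hd.1.2, by rw [← hd.2]; exact (Nat.lt_pow_succ_log_self one_lt_two _).le⟩
  calc ∑ d ∈ v.filter (fun d => J d = j), ((d : ℝ) * orderOf (g : ZMod d))⁻¹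
      ≤ ∑ d ∈ v.filter (fun d => J d = j), (d : ℝ)⁻¹ / 2 ^ j := by
        refine sum_le_sum fun d hd => ?_
        simp only [hv, hJ, mem_filter] at hd
        rcases Nat.eq_zero_or_pos (orderOf (g : ZMod d)) with ho | ho
        · rw [ho, Nat.cast_zero, mul_zero, inv_zero]
          positivity
        rw [mul_inv, div_eq_mul_inv]
        refine mul_le_mul_of_nonneg_left (inv_anti₀ (by positivity) ?_) (by positivity)
        have := Nat.pow_log_le_self 2 ho.ne'
        rw [hd.2] at this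
        exact_mod_cast this
    _ ≤ C * ((2 ^ (j + 1) : ℕ) + 2 : ℝ) ^ (1 / 2 : ℝ) / 2 ^ j := by
        rw [← sum_div]
        exact div_le_div_of_nonneg_right (hC _ _ hmem) (by positivity)
    _ ≤ f j := by
        rw [hf, div_le_iff₀ (by positivity), mul_assoc (C * 4), ← mul_pow,
          show (3 / 4 : ℝ) * 2 = 3 / 2 by norm_num, mul_assoc]
        refine mul_le_mul_of_nonneg_left ?_ hC0.le
        rw [← Real.sqrt_eq_rpow, Real.sqrt_le_left (by positivity), mul_pow, ← pow_mul,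
          mul_comm j 2, pow_mul]
        push_cast
        have h2 : (2 : ℝ) ^ j ≤ ((3 / 2 : ℝ) ^ 2) ^ j :=
          pow_le_pow_left₀ (by norm_num) (by norm_num) j
        have h1 : (1 : ℝ) ≤ 2 ^ j := one_le_pow₀ (by norm_num)
        rw [pow_succ]
        nlinarith

/-- `∑_{i ≤ K} ∑_{d ∣ g ^ i - 1} 1 / d = O (K)`. -/
theorem sum_recipDiv_pow_sub_one_le {g : ℕ} (hg : 2 ≤ g) (K : ℕ) :
    ∑ i ∈ Icc 1 K, recipDiv (g ^ i - 1) ≤ K * ∑' d, romanoffTerm g d := by
  obtain ⟨D, hD⟩ : ∃ D, D = (Icc 1 K).biUnion fun i => (g ^ i - 1).divisors := ⟨_, rfl⟩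
  have hswap : ∑ i ∈ Icc 1 K, recipDiv (g ^ i - 1) =
      ∑ d ∈ D, (#((Icc 1 K).filter fun i => d ∣ g ^ i - 1) : ℝ) * (d : ℝ)⁻¹ := by
    simp only [← nsmul_eq_mul, ← sum_const, sum_filter]
    rw [sum_comm]
    refine sum_congr rfl fun i hi => ?_
    rw [← sum_filter, recipDiv]
    refine sum_congr (Finset.ext fun d => ?_) fun _ _ => rfl
    rw [hD, mem_filter, mem_biUnion, Nat.mem_divisors]
    constructor
    · exact fun h => ⟨⟨i, hi, Nat.mem_divisors.2 h⟩, h.1⟩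
    · intro h
      have := Nat.one_lt_pow (n := i) (a := g) (by rw [mem_Icc] at hi; omega) hg
      exact ⟨h.2, by omega⟩
  rw [hswap]
  refine le_trans (sum_le_sum (g := fun d => (K : ℝ) * romanoffTerm g d) fun d hd => ?_) ?_
  · rw [hD, mem_biUnion] at hd
    obtain ⟨i₀, hi₀, hdi⟩ := hd
    obtain ⟨hdvd, hne⟩ := Nat.mem_divisors.1 hdi
    rw [mem_Icc] at hi₀
    have hd0 : d ≠ 0 := fun h => hne (Nat.eq_zero_of_zero_dvd (h ▸ hdvd))
    have hpow1 : ∀ i, d ∣ g ^ i - 1 ↔ orderOf (g : ZMod d) ∣ i := by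
      intro i
      rw [← ZMod.natCast_eq_zero_iff, Nat.cast_sub (Nat.one_le_pow _ _ (by omega)),
        Nat.cast_pow, Nat.cast_one, sub_eq_zero, orderOf_dvd_iff_pow_eq_one]
    have hcop : d.Coprime g := by
      refine Nat.Coprime.coprime_dvd_left hdvd ?_
      rw [← Nat.coprime_pow_right_iff (n := i₀) (by omega)]
      obtain ⟨m, hm⟩ := Nat.exists_eq_add_of_le (Nat.one_le_pow i₀ g (by omega))
      rw [hm, Nat.add_sub_cancel_left]
      simp
    obtain ⟨o, ho⟩ : ∃ o, o = orderOf (g : ZMod d) := ⟨_, rfl⟩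
    have ho1 : 0 < o := Nat.pos_of_dvd_of_pos (ho ▸ (hpow1 i₀).1 hdvd) (by omega)
    have hcard : #((Icc 1 K).filter fun i => d ∣ g ^ i - 1) = K / o := by
      rw [← Nat.Ioc_filter_dvd_card_eq_div K o, ← Icc_succ_left_eq_Ioc]
      simp only [hpow1, ho]
      rfl
    rw [hcard, romanoffTerm, if_pos hcop, ← ho, mul_inv]
    calc ((K / o : ℕ) : ℝ) * (d : ℝ)⁻¹ ≤ (K : ℝ) / o * (d : ℝ)⁻¹ :=
          mul_le_mul_of_nonneg_right Nat.cast_div_le (by positivity)
      _ = _ := by ring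
  · rw [← mul_sum]
    exact mul_le_mul_of_nonneg_left
      ((summable_romanoffTerm hg).sum_le_tsum _ fun d _ => romanoffTerm_nonneg g d)
      (Nat.cast_nonneg K)

end FA.Romanoff
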